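import Mathlib.RingTheory.LaurentSeries

/-!
# Almost integral series are integral

Let `R` be a subring of a field containing every `b` for which some `a ≠ 0` has all `a * b ^ n`
in `R`. Then the same holds for Laurent and power series with coefficients in `R`: a series `x`
with all `c * x ^ n` integral, `c ≠ 0`, is integral. Used for the various rings of integral
`q`-expansions.
-/

set_option autoImplicit false

noncomputable section

namespace Fermat.Agent.Series

variable {F : Type*} [Field F] {R : Subring F}

/-- Products of Laurent series with coefficients in `R` have coefficients in `R`. -/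
theorem coeff_mul_mem_subring {f g : LaurentSeries F} (hf : ∀ n, f.coeff n ∈ R)
    (hg : ∀ n, g.coeff n ∈ R) (k : ℤ) : (f * g).coeff k ∈ R := by
  rw [HahnSeries.coeff_mul]
  exact sum_mem fun p _ => mul_mem (hf _) (hg _)

/-- If `R` is completely integrally closed, a Laurent series almost integral over series with
coefficients in `R` has coefficients in `R`. -/
theorem coeff_mem_of_almost_integral (hR : ∀ a b : F, a ≠ 0 → (∀ n : ℕ, a * b ^ n ∈ R) → b ∈ R)
    {c x : LaurentSeries F} (hc : c ≠ 0) (h : ∀ (n : ℕ) (m : ℤ), (c * x ^ n).coeff m ∈ R) :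
    ∀ m, x.coeff m ∈ R := by
  by_contra hx
  push Not at hx
  set B := {n : ℤ | x.coeff n ∉ R} with hB
  have hBne : B.Nonempty := hx
  have hsub : B ⊆ x.support := fun n hn h0 => hn (by rw [h0]; exact zero_mem _)
  -- Let `m` be the least degree of a coefficient outside `R`, and remove the part `x0` below it.
  obtain ⟨m, hm, hmin⟩ : ∃ m ∈ B, ∀ n ∈ B, m ≤ n :=
    ⟨(x.isWF_support.mono hsub).min hBne, Set.IsWF.min_mem _ _, fun n hn => Set.IsWF.min_le _ _ hn⟩
  set x0 : LaurentSeries F := ⟨fun n => if n < m then x.coeff n else 0,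
    x.isPWO_support.mono (fun n hn => by
      simp only [Function.mem_support, HahnSeries.mem_support, ne_eq] at hn ⊢
      split_ifs at hn with h1
      · exact hn
      · exact absurd rfl hn)⟩ with hx0
  have hx0mem : ∀ n, x0.coeff n ∈ R := fun n => by
    change (if n < m then x.coeff n else 0) ∈ _
    split_ifs with h1
    · by_contra hn
      exact absurd (hmin n hn) (not_le.mpr h1)
    · exact zero_mem _
  set x1 := x - x0 with hx1
  -- The rest `x1` is still almost integral.
  have key : ∀ n i : ℕ, ∀ k, (c * x1 ^ n * x ^ i).coeff k ∈ R := by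
    intro n
    induction n with
    | zero => intro i; simpa using h i
    | succ n ih =>
      intro i k
      rw [show c * x1 ^ (n + 1) * x ^ i =
        c * x1 ^ n * x ^ (i + 1) - x0 * (c * x1 ^ n * x ^ i) by
          rw [hx1]; ring, HahnSeries.coeff_sub]
      exact sub_mem (ih _ k) (coeff_mul_mem_subring hx0mem (ih i) k)
  have hcm : x1.coeff m = x.coeff m := by
    rw [hx1, HahnSeries.coeff_sub]
    change x.coeff m - (if m < m then x.coeff m else 0) = _
    simp
  have hlt : ∀ n < m, x1.coeff n = 0 := by
    intro n hn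
    rw [hx1, HahnSeries.coeff_sub]
    change x.coeff n - (if n < m then x.coeff n else 0) = _
    simp [hn]
  have hx1ne : x1 ≠ 0 := fun h0 => hsub hm (by rw [← hcm, h0]; rfl)
  have hord : x1.order = m :=
    le_antisymm (HahnSeries.order_le_of_coeff_ne_zero (by rw [hcm]; exact hsub hm))
      (not_lt.mp fun hl => HahnSeries.coeff_order_eq_zero.not.mpr hx1ne (hlt _ hl))
  have hlead : x1.leadingCoeff = x.coeff m := by
    rw [HahnSeries.leadingCoeff_eq, hord, hcm]
  -- So is its leading coefficient `x_m`, hence `x_m ∈ R`.
  refine hm (hR _ _ (HahnSeries.leadingCoeff_ne_zero.mpr hc) fun n => ?_)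
  have hmem := key n 0 (c * x1 ^ n * x ^ 0).order
  rw [← HahnSeries.leadingCoeff_eq, pow_zero, mul_one, HahnSeries.leadingCoeff_mul] at hmem
  have hpow : ∀ j : ℕ, (x1 ^ j).leadingCoeff = x1.leadingCoeff ^ j := by
    intro j
    induction j with
    | zero => simp
    | succ j ih => rw [pow_succ, pow_succ, HahnSeries.leadingCoeff_mul, ih]
  rwa [hpow, hlead] at hmem

/-- The same for power series. -/
theorem powerSeries_coeff_mem_of_almost_integral
    (hR : ∀ a b : F, a ≠ 0 → (∀ n : ℕ, a * b ^ n ∈ R) → b ∈ R)
    {A h : PowerSeries F} (hA : A ≠ 0) (hh : ∀ m i : ℕ, (A * h ^ m).coeff i ∈ R) (i : ℕ) :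
    h.coeff i ∈ R := by
  have key := coeff_mem_of_almost_integral hR (c := (A : LaurentSeries F))
    (x := (h : LaurentSeries F)) ((map_ne_zero_iff _ HahnSeries.ofPowerSeries_injective).mpr hA)
    (fun n m => ?_) (i : ℤ)
  · rwa [PowerSeries.coeff_coe, if_neg (by omega), Int.natAbs_natCast] at key
  · have e : (A : LaurentSeries F) * (h : LaurentSeries F) ^ n =
        ((A * h ^ n : PowerSeries F) : LaurentSeries F) := by
      rw [PowerSeries.coe_mul, PowerSeries.coe_pow]
    rw [e, PowerSeries.coeff_coe]
    split_ifs
    · exact zero_mem _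
    · exact hh n _

end Fermat.Agent.Series
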